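import Fermat.Statements.S05
import Fermat.Agent.EC.Multiplicative.Frey

/-!
# Ramification of the Frey representation

The mod `p` representation of the Frey curve is unramified at primes `q ≠ 2, p`, by reduction
theory at multiplicative and at good primes (`EC/Multiplicative/Frey`, `EC/Reduction/Frey`). It is
used in `RT/Frey/Lowering`.
-/

set_option autoImplicit false

namespace Fermat.Agent.S05

theorem result (P : FreyPackage) {q : ℕ} (hq : q.Prime) (hq2 : q ≠ 2) (hqp : q ≠ P.p) : P.GaloisRepUnramifiedAt q := by
  by_cases h : (q : ℤ) ∣ P.a * P.b * P.c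
  · exact Fermat.Agent.EC.Multiplicative.Frey.galoisRepUnramifiedAt_of_dvd P hq hq2 hqp h
  · exact Fermat.Agent.EC.Reduction.Frey.galoisRepUnramifiedAt_of_not_dvd P hq hqp h

end Fermat.Agent.S05
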