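import Fermat.Agent.S01

/-!
# Mathlib's formulation of Fermat's Last Theorem

`FermatLastTheorem` of Mathlib, from the statement S01. Not imported by any statement.
-/

set_option autoImplicit false

/-- **Fermat's Last Theorem**, in Mathlib's formulation. -/
theorem Fermat.Agent.fermatLastTheorem : FermatLastTheorem :=
  fun n hn a b c ha hb hc =>
    Fermat.Agent.S01.result n hn a b c (Nat.pos_of_ne_zero ha) (Nat.pos_of_ne_zero hb)
      (Nat.pos_of_ne_zero hc)
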