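import Fermat.Statements.S10
import Fermat.Agent.Mazur.Small.Frey
import Fermat.Agent.Mazur.Thirteen.Main

/-!
# No cofixed line for `p = 5, 7, 13`

The mod `p` representation of the Frey curve has no Galois stable cofixed line when `p` is
`5`, `7` or `13`, by explicit descents (`Mazur/Small` for `5` and `7`, `Mazur/Thirteen` for `13`,
where the square discriminant of the Frey curve is used). It is used in `Mazur/Large/Assembly`.
-/

set_option autoImplicit false
open WeierstrassCurve.Affine.Point

namespace Fermat.Agent.S10

theorem result (P : FreyPackage) (hp : P.p = 5 ∨ P.p = 7 ∨ P.p = 13) : ¬ HasGaloisStableCofixedLine (K := AlgebraicClosure ℚ) ℚ P.freyCurve P.p := by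
  rcases hp with hp | hp | hp
  · exact Fermat.Agent.Mazur.Small.not_hasGaloisStableCofixedLine_five_seven P (Or.inl hp)
  · exact Fermat.Agent.Mazur.Small.not_hasGaloisStableCofixedLine_five_seven P (Or.inr hp)
  · exact Fermat.Agent.Mazur.Thirteen.not_hasGaloisStableCofixedLine_thirteen P hp

end Fermat.Agent.S10
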