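import Fermat.Statements.S11
import Fermat.Agent.Mazur.Eleven.Main

/-!
# No cofixed line for `p = 11`

The mod `11` representation of the Frey curve has no Galois stable cofixed line, by
`Mazur/Eleven/Main`. It is used in `Mazur/Large/Assembly`.
-/

set_option autoImplicit false
open WeierstrassCurve.Affine.Point

namespace Fermat.Agent.S11

theorem result (P : FreyPackage) (hp : P.p = 11) : ¬ HasGaloisStableCofixedLine (K := AlgebraicClosure ℚ) ℚ P.freyCurve P.p := by
  exact Fermat.Agent.Mazur.Eleven.not_hasGaloisStableCofixedLine_eleven P hp

end Fermat.Agent.S11
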