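import Fermat.Statements.S07
import Fermat.Agent.Patching.SmallLevel

/-!
# No cusp forms of weight two and level two

Every weight two cusp form on `Γ₀(2)` is zero, by the Sturm bound (`Patching/SmallLevel`). It is
the final contradiction in `RT/Frey/TopSquarefree`.
-/

set_option autoImplicit false
open ModularForm

namespace Fermat.Agent.S07

theorem result (f : CuspForm (CongruenceSubgroup.Gamma0 2) 2) : f = 0 := by
  exact Fermat.Agent.Patching.cuspForm_two_eq_zero_of_le_two 2 (by norm_num) f

end Fermat.Agent.S07
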