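import Fermat.Statements.S09
import Fermat.Agent.Mazur.Eisenstein.InputsProved
import Fermat.Agent.Mazur.Large.Assembly

/-!
# Irreducibility of the Frey representation

Mazur's theorem for Frey curves: the mod `p` representation of every Frey package is irreducible.
A reducible one has a cofixed line (S13). The exponents up to `13` are S10 and S11; `p ≥ 17`
follows from the three-place lemma, which comes from the Eisenstein descent on `J₀(p)`
(`Mazur/Eisenstein/Final`). It is used in `RT/Frey/TopSquarefree` for S01 and S03.
-/

set_option autoImplicit false
open WeierstrassCurve.Affine.Point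

namespace Fermat.Agent.S09

theorem result (P : FreyPackage) : GaloisRepIsIrreducible (K := AlgebraicClosure ℚ) ℚ P.freyCurve P.p := by
  exact Fermat.Agent.Mazur.Large.galoisRepIsIrreducible_frey
    (Fermat.Agent.Mazur.Eisenstein.threePlaceLemma_of_inputs
      Fermat.Agent.Mazur.Eisenstein.jacobianInputs) P

end Fermat.Agent.S09
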