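import Fermat.Statements.S01
import Fermat.Agent.RT.Frey.Lifting
import Fermat.Agent.RT.Frey.Residual
import Fermat.Agent.RT.Frey.TopSquarefree
import Fermat.Agent.RT.LowerP.FlatInput

/-!
# Fermat's Last Theorem

For `n ≥ 3` there are no positive natural numbers with `a ^ n + b ^ n = c ^ n`. Exponents reduce
to `3`, `4` (both in Mathlib) and primes `p ≥ 5`. For these a counterexample gives a Frey package
(S02), whose mod `p` representation is irreducible (S09) and, by residual modularity at `3`,
modularity lifting and level lowering, comes from a nonzero weight two cusp form on `Γ₀(2)`; there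
is none (S07). The endgame is `RT/Frey/TopSquarefree`, applied to the inputs proved in `RT/Frey` and
`RT/LowerP`.
-/

set_option autoImplicit false

namespace Fermat.Agent.S01

theorem result (n : ℕ) (hn : 3 ≤ n) (a b c : ℕ) (ha : 0 < a) (hb : 0 < b) (hc : 0 < c) : a ^ n + b ^ n ≠ c ^ n := by
  exact Fermat.Agent.RT.Frey.fermat_of_inputs Fermat.Agent.RT.Frey.lowerInput
    Fermat.Agent.RT.LowerP.lowerAtPInput
      Fermat.Agent.RT.Frey.residualThreeEvenInput Fermat.Agent.RT.Frey.liftingSquarefreeInput n hn a
        b c ha hb hc

end Fermat.Agent.S01
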