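import Fermat.Statements.S02
import Fermat.Agent.RT.Frey.Normalize

/-!
# Frey packages from solutions

A solution of `a ^ p + b ^ p = c ^ p` in nonzero integers with `p ≥ 5` prime can be normalised to
a Frey package (`RT/Frey/Normalize`). It is used in `RT/Frey/Top`.
-/

set_option autoImplicit false
open FreyPackage

namespace Fermat.Agent.S02

theorem result (a b c : ℤ) (ha : a ≠ 0) (hb : b ≠ 0) (hc : c ≠ 0) (p : ℕ) (pp : p.Prime) (hp5 : 5 ≤ p) (H : a ^ p + b ^ p = c ^ p) : Nonempty FreyPackage := by
  exact Fermat.Agent.RT.Frey.freyPackage_of_solution ha hb hc pp hp5 H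

end Fermat.Agent.S02
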