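import Fermat.Statements.S03
import Fermat.Agent.RT.Frey.Lifting
import Fermat.Agent.RT.Frey.Residual
import Fermat.Agent.RT.Frey.TopSquarefree
import Fermat.Agent.RT.LowerP.FlatInput

/-!
# No Frey package exists

Fermat's Last Theorem for prime exponents `p ≥ 5`: the mod `p` representation of a Frey package is
irreducible (S09) and the Frey curve is modular, so level lowering gives a nonzero weight two cusp
form on `Γ₀(2)`, contradicting S07. It is `false_of_freyPackage` of `RT/Frey/TopSquarefree`.
-/

set_option autoImplicit false

namespace Fermat.Agent.S03

theorem result (P : FreyPackage) : False := by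
  exact Fermat.Agent.RT.Frey.false_of_freyPackage Fermat.Agent.RT.Frey.lowerInput
      Fermat.Agent.RT.LowerP.lowerAtPInput Fermat.Agent.RT.Frey.residualThreeEvenInput
      Fermat.Agent.RT.Frey.liftingSquarefreeInput P

end Fermat.Agent.S03
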