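import Fermat.Statements.S04
import Fermat.Agent.RT.Frey.Lifting
import Fermat.Agent.RT.Frey.Residual

/-!
# The Frey curve is modular

The Frey curve of a Frey package is modular, from residual modularity at `3`, the 3-5 switch and
modularity lifting at `3` and `5` (`RT/Frey/ModularSquarefree`).
-/

set_option autoImplicit false

namespace Fermat.Agent.S04

theorem result (P : FreyPackage) : P.freyCurve.IsModular := by
  exact Fermat.Agent.RT.Frey.freyCurve_isModular Fermat.Agent.RT.Frey.residualThreeEvenInput
      Fermat.Agent.RT.Frey.liftingSquarefreeInput P

end Fermat.Agent.S04
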