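import Fermat.Statements.S06
import Fermat.Agent.RT.Frey.Lifting
import Fermat.Agent.RT.Frey.Residual

/-!
# Modularity of conductor level

The mod `p` representation of the Frey curve is modular of a conductor level of the Frey
package, as the curve is modular of exactly its conductor level (`RT/Frey/ModularSquarefree`).
-/

set_option autoImplicit false

namespace Fermat.Agent.S06

theorem result (P : FreyPackage) : ∃ N : ℕ, P.IsConductorLevel N ∧ P.ModularRepOfLevel N := by
  exact Fermat.Agent.RT.Frey.exists_conductorLevel Fermat.Agent.RT.Frey.residualThreeEvenInput
      Fermat.Agent.RT.Frey.liftingSquarefreeInput P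

end Fermat.Agent.S06
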