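import Fermat.Statements.S12
import Fermat.Agent.Mazur.Eisenstein.InputsProved
import Fermat.Agent.Mazur.Large.Main

/-!
# No cofixed line for `p ≥ 17`

The mod `p` representation of the Frey curve has no Galois stable cofixed line when `p ≥ 17`:
`Mazur/Large/Main`, with the three-place lemma from the Eisenstein descent on `J₀(p)`
(`Mazur/Eisenstein/Final`).
-/

set_option autoImplicit false
open WeierstrassCurve.Affine.Point

namespace Fermat.Agent.S12

theorem result (P : FreyPackage) (hp : 17 ≤ P.p) : ¬ HasGaloisStableCofixedLine (K := AlgebraicClosure ℚ) ℚ P.freyCurve P.p := by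
  exact Fermat.Agent.Mazur.Large.not_hasGaloisStableCofixedLine_of_seventeen_le
    (Fermat.Agent.Mazur.Eisenstein.threePlaceLemma_of_inputs
      Fermat.Agent.Mazur.Eisenstein.jacobianInputs) P hp

end Fermat.Agent.S12
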