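import Fermat.Statements.S14
import Fermat.Agent.ClassField.ExtVanishing

/-!
# Vanishing of the admissible extensions `0 → ℤ/p → V → μ_p → 0`

The property `ExtVanishingCts p` holds for every prime `p ≥ 3`: such extensions split
(`ClassField/ExtVanishing`).
-/

set_option autoImplicit false

namespace Fermat.Agent.S14

theorem result {p : ℕ} [Fact p.Prime] (h3 : 3 ≤ p) :
    ExtCitation.ExtVanishingCts p := by
  exact Fermat.Agent.ClassField.extVanishingCts h3

end Fermat.Agent.S14
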