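import Fermat.Statements.S17
import Fermat.Agent.MordellWeil.Main

/-!
# Mordell–Weil for `J₀(N)`

The Galois fixed points of `J₀(N)(ℚ̄)` form a finitely generated group, for prime `N ≥ 5`.
`MordellWeil/Main` proves this for every `N`, so neither hypothesis on `N` is used.
-/

set_option autoImplicit false
open ModularCurve
open ModularCurve

namespace Fermat.Agent.S17

theorem result (N : ℕ) [NeZero N] (hN : N.Prime) (hN5 : 5 ≤ N) :
    AddGroup.FG ↥(FixedPoints.addSubgroup ((AlgebraicClosure ℚ) ≃ₐ[ℚ] (AlgebraicClosure ℚ))
      (JZero N)) := by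
  have := Fact.mk hN
  exact MordellWeil.jZero_rationalPoints_fg N

end Fermat.Agent.S17
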