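import Fermat.Statements.S19
import Fermat.Agent.FiniteFlat.TorsionOrder
import Fermat.Agent.FiniteFlat.GalOrderHopf
import Fermat.Agent.Arith.Frobenius

/-!
# Finite flat torsion of the modular Jacobian

For a prime `ℓ` not dividing the level `p` the `ℓ ^ k`-torsion of `J₀(p)` is, equivariantly for
Galois, the group of points of a finite flat cocommutative Hopf algebra over `ℤ₍ℓ₎`, built from
the Galois order of `FiniteFlat/TorsionOrder`.
-/

set_option autoImplicit false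
open ModularCurve
open ModularCurve

namespace Fermat.Agent.S19

theorem result
    (p : ℕ) [NeZero p] (ℓ : ℕ) [Fact ℓ.Prime] (hℓp : ¬ ℓ ∣ p) (k : ℕ) :
    ∃ (H : Type) (_ : CommRing H) (_ : HopfAlgebra (GaloisRep.ratLocalizedAt ℓ) H),
      Module.Finite (GaloisRep.ratLocalizedAt ℓ) H ∧ Module.Flat (GaloisRep.ratLocalizedAt ℓ) H ∧
      Coalgebra.IsCocomm (GaloisRep.ratLocalizedAt ℓ) H ∧
      ∃ e : WithConv (H →ₐ[GaloisRep.ratLocalizedAt ℓ] AlgebraicClosure ℚ) ≃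
          ↥(Submodule.torsionBy ℤ (JZero p) ((ℓ : ℤ) ^ k)),
        (∀ f g, e (f * g) = e f + e g) ∧
        ∀ (σ : AlgebraicClosure ℚ ≃ₐ[ℚ] AlgebraicClosure ℚ)
          (f g : WithConv (H →ₐ[GaloisRep.ratLocalizedAt ℓ] AlgebraicClosure ℚ)),
          (∀ h : H, g h = σ (f h)) → ((e g : JZero p)) = σ • (e f : JZero p) := by
  classical
  have hl : ℓ.Prime := Fact.out
  have : NeZero (ℓ ^ k) := ⟨pow_ne_zero _ hl.ne_zero⟩
  obtain ⟨A, hA⟩ := Arith.exists_liesOverPrime hl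
  obtain ⟨O, -⟩ := FiniteFlat.exists_galOrder_torsion (N := p) hl hℓp hA (ℓ ^ k)
  obtain ⟨H, i₁, i₂, h1, h2, h3, e, hadd, hgal⟩ := O.exists_hopfAlgebra
  have hmem : ∀ x : JZero p, x ∈ Submodule.torsionBy ℤ (JZero p) ((ℓ : ℤ) ^ k) ↔
      x ∈ AlgebraicCurve.Pic0.torsion (AlgebraicClosure ℚ) (modularFunctionFieldBar p) (ℓ ^ k) :=
    fun x => by rw [AlgebraicCurve.Pic0.mem_torsion, Submodule.mem_torsionBy_iff, Nat.cast_pow]
  let j : FiniteFlat.TorsPt p (ℓ ^ k) ≃ ↥(Submodule.torsionBy ℤ (JZero p) ((ℓ : ℤ) ^ k)) :=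
    Equiv.subtypeEquivRight fun x => (hmem x).symm
  refine ⟨H, i₁, i₂, h1, h2, h3, e.trans j, fun f g => ?_, fun σ f g hfg => ?_⟩
  · exact Subtype.ext (congrArg FiniteFlat.TorsPt.incl (hadd f g) |>.trans (map_add _ _ _))
  · exact congrArg FiniteFlat.TorsPt.incl (hgal σ f g hfg)

end Fermat.Agent.S19
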