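import Fermat.Statements.S20
import Fermat.Agent.Poincare.Gamma0Link

/-!
# The dimension of `S₂(Γ₀(N))`

It equals the genus formula for `X₀(N)`, by the theory of vector valued modular forms
(`Poincare/Gamma0Link`).
-/

set_option autoImplicit false

namespace Fermat.Agent.S20

theorem result (N : ℕ) [NeZero N] :
    (Module.finrank ℂ (CuspForm (CongruenceSubgroup.Gamma0 N) 2) : ℚ) =
      ModularCurve.genusFormula N := by
  exact Poincare.finrank_cuspForm_two N

end Fermat.Agent.S20
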