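import Fermat.Statements.S21
import Fermat.Agent.HeckeDuality.Shimura

/-!
# Eichler–Shimura

The period map of level `N` is injective with image the parabolic homomorphisms of `Γ₀(N)`
(`Periods/Conj`, `HeckeDuality/Shimura`).
-/

set_option autoImplicit false

namespace Fermat.Agent.S21

theorem result (N : ℕ) [NeZero N] :
    Function.Injective (ModularCurve.periodHomPair N)
      ∧ LinearMap.range (ModularCurve.periodHomPair N)
          = ModularCurve.Period.parabolicHoms ℂ (CongruenceSubgroup.Gamma0 N) ℂ := by
  exact ⟨Fermat.Agent.Periods.periodHomPair_injective N,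
    Fermat.Agent.HeckeDuality.range_periodHomPair N⟩

end Fermat.Agent.S21
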