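import Fermat.Statements.S23
import Fermat.Agent.IntegralStructure.Main

/-!
# The integral structure on `S₂(Γ₀(N))`

Weight two cusp forms on `Γ₀(N)` have an integral structure in the sense of
`HasIntegralStructure` (`IntegralStructure/Main`).
-/

set_option autoImplicit false

namespace Fermat.Agent.S23

theorem result (N : ℕ) [NeZero N] : CuspForm.HasIntegralStructure N 2 := by
  exact Fermat.Agent.IntegralStructure.hasIntegralStructure N 2

end Fermat.Agent.S23
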