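import Fermat.Statements.S24
import Fermat.Agent.Genus.Main

/-!
# The genus of `X₀(N)`

The genus, defined by a canonical divisor, of the function field of `X₀(N)` over `ℚ̄` equals the
classical formula (`Genus/Main`).
-/

set_option autoImplicit false

namespace Fermat.Agent.S24

theorem result (N : ℕ) [NeZero N]
    [AlgebraicCurve.HasCanonicalDivisor (K := AlgebraicClosure ℚ)
      (F := ↥(ModularCurve.modularFunctionFieldBar N))] :
    (AlgebraicCurve.genus (AlgebraicClosure ℚ) ↥(ModularCurve.modularFunctionFieldBar N) : ℚ)
      = ModularCurve.genusFormula N := by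
  exact Fermat.Agent.Genus.genus_eq_genusFormula N

end Fermat.Agent.S24
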