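import Fermat.Statements.S27
import Fermat.Agent.CurveTorsion.Main
import Fermat.Agent.CurveTorsion.FromIsCurveOver

/-!
# Torsion of the class group of a curve

Over an algebraically closed field of characteristic zero, the degree zero class group of the
function field of a curve of genus `g` has `ℓ ^ (2 g k)` elements killed by `ℓ ^ k`, by reduction
to finite fields (`CurveTorsion/Main`).
-/

set_option autoImplicit false
set_option autoImplicit false
open AlgebraicCurve
open AlgebraicCurve

namespace Fermat.Agent.S27

theorem result
    (K F : Type*) [Field K] [Field F] [Algebra K F] [IsAlgClosed K] [CharZero K]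
    [IsCurveOver K F] [Algebra.EssFiniteType K F]
    (ℓ : ℕ) [Fact ℓ.Prime] (k : ℕ) :
    Nat.card (Pic0.torsion K F (ℓ ^ k)) = ℓ ^ (2 * genusFF K F * k) := by
  have : Fermat.Agent.FF.IsFunctionField K F :=
    Fermat.Agent.CurveTorsion.isFunctionField_of_isCurveOver K F
  exact Fermat.Agent.CurveTorsion.natCard_torsion_pow_of_charZero K F ℓ k

end Fermat.Agent.S27
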