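import Fermat.Statements.S29
import Fermat.Agent.GaloisReps.Models
import Fermat.Agent.GaloisReps.Attach

/-!
# Residual representations of eigenforms

For every prime `p` and every map of `ℤ̄` to a field of characteristic `p`, a normalised weight
two eigenform on `Γ₀(N)` has an attached residual Galois representation, unramified outside
`N p`. It comes from the models of `GaloisReps/Models`.
-/

set_option autoImplicit false

namespace Fermat.Agent.S29

theorem result
    {N : ℕ} {g : CuspForm (CongruenceSubgroup.Gamma0 N) 2} (hg : g.IsNormalizedEigenform)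
    {p : ℕ} (hp : p.Prime) {k : Type} [Field k] [CharP k p]
    (φ : integralClosure ℤ ℂ →+* k) :
    ∃ ρ : ResidualGaloisRep k, ρ.IsAttachedTo g φ ∧
      ∀ ℓ : ℕ, ℓ.Prime → ¬ ℓ ∣ N * p → ρ.IsUnramifiedAt ℓ := by
  exact Fermat.Agent.GaloisReps.exists_residual_eigenform
    Fermat.Agent.GaloisReps.models hg hp φ

end Fermat.Agent.S29
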