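import Fermat.Statements.S33
import Fermat.Agent.OrdinaryAtP.NoQuotient
import Fermat.Agent.OrdinaryAtP.Main

/-!
# Ordinarity at `p`

For `p` odd exactly dividing `N` the representation of a Hecke–Galois datum of level `N` is
ordinary at `p` when its residual representation is (`OrdinaryAtP/Main`). That `S` contains the
primes of `N`, the finiteness of the residue field and characteristic zero are not used.
-/

set_option autoImplicit false
variable {p : ℕ} {N : ℕ} [NeZero N] {S : Finset ℕ}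
  {𝒪 : Type} [CommRing 𝒪] [IsDomain 𝒪] [IsDiscreteValuationRing 𝒪]
  [IsAdicComplete (IsLocalRing.maximalIdeal 𝒪) 𝒪]
  {θ : CuspForm.heckeAlgebra N 2 (↑S : Set ℕ) →+* IsLocalRing.ResidueField 𝒪}
  {T : Type} [CommRing T] [IsLocalRing T] [IsNoetherianRing T]
  [IsAdicComplete (IsLocalRing.maximalIdeal T) T] [Algebra 𝒪 T] [IsLocalHom (algebraMap 𝒪 T)]
  [Module.Finite 𝒪 T] [Module.Free 𝒪 T]

namespace Fermat.Agent.S33

theorem result
    [Finite (IsLocalRing.ResidueField 𝒪)] [CharZero 𝒪]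
    (hp : p.Prime) (hp2 : p ≠ 2) (hp𝒪 : (p : 𝒪) ∈ IsLocalRing.maximalIdeal 𝒪) (hN : p ∣ N ∧
      ¬ p ^ 2 ∣ N)
    (hNS : ∀ q : ℕ, q.Prime → q ∣ N → q ∈ S)
    (H : CuspForm.HeckeGaloisRepDatum N (↑S : Set ℕ) 𝒪 θ T)
    (hres : (GaloisRepAdic.ofResidualGaloisRep H.ρ.residual).IsOrdinaryAt p) :
    H.ρ.IsOrdinaryAt p := by
  have : Fact p.Prime := ⟨hp⟩
  exact Fermat.Agent.OrdinaryAtP.isOrdinaryAt_of_noTrivialQuotient hp2
    (fun A M _ hA h4 hpM =>
      haveI : NeZero M := ⟨(mul_ne_zero_iff.mp (NeZero.ne (p * M))).2⟩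
      Fermat.Agent.OrdinaryAtP.noTrivialQuotient_of_four_dvd hA
        (lt_of_le_of_ne hp.two_le (Ne.symm hp2)) h4 hpM)
    hN hp𝒪 H hres

end Fermat.Agent.S33
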