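import Fermat.Statements.S38
import Fermat.Agent.RT.Frey.LowerAny

/-!
# Ribet's level lowering

For an odd prime `p`, a residually modular semistable curve with irreducible representation,
unramified at a prime `q ≠ p` of the squarefree level `M`, is residually modular of level `M / q`
(`RT/Frey/LowerAny`). When `p` divides `M` and not the discriminant this uses the modularity of
semistable curves, so it is not independent of it. That `q ^ 2 ∤ M` is not used separately.
-/

set_option autoImplicit false
set_option autoImplicit false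
open WeierstrassCurve WeierstrassCurve.Affine
open WeierstrassCurve

namespace Fermat.Agent.S38

theorem result
    (p : ℕ) [Fact p.Prime] (_hp2 : p ≠ 2) (W : WeierstrassCurve ℤ) (_hΔ : W.Δ ≠ 0)
    (_hW : W.IsSemistableModel)
    (hcard₁ : Nat.card (Submodule.torsionBy ℤ
      ((W.map (Int.castRingHom ℚ))⁄(AlgebraicClosure ℚ)).Point p) = p ^ 2)
    (hker : GaloisFactorsThroughFiniteLevel
      (WeierstrassCurve.Affine.Point.galoisRepModuleEnd (K := AlgebraicClosure ℚ) ℚ
        (W.map (Int.castRingHom ℚ)) p))
    (_hirr : W.ModRepIsIrreducible p) (M q : ℕ) (hq : q.Prime) (hqp : q ≠ p)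
    (hqM : q ∣ M) (hq2 : ¬ q ^ 2 ∣ M) (hM : Squarefree M)
    (hunr : ((W.map (Int.castRingHom ℚ)).residualGaloisRepOf p hcard₁ hker).IsUnramifiedAt q)
    (hres : W.IsResiduallyModularOfLevel p M) :
    W.IsResiduallyModularOfLevel p (M / q) := by
  exact Fermat.Agent.RT.Frey.lower_of_unramified _hΔ _hW _hp2 _hirr hM hq hqp hqM hunr hres

end Fermat.Agent.S38
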