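import Fermat.Statements.S39
import Fermat.Agent.RT.LowerPW.Main

/-!
# Lowering at `p`, peu ramifiée case

For odd `p`, if the irreducible mod `p` representation of a curve semistable at `p` is peu
ramifiée at `p`, then residual modularity of a level `M` exactly divisible by `p` descends to
level `M / p` (`RT/LowerPW/Main`; no modularity theorem is used).
-/

set_option autoImplicit false
open WeierstrassCurve

namespace Fermat.Agent.S39

theorem result
    (W : WeierstrassCurve ℤ) (hΔ : W.Δ ≠ 0)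
    {p : ℕ} (hp : p.Prime) (hp2 : p ≠ 2)
    (hsemi : (p : ℤ) ∣ W.Δ → ¬ (p : ℤ) ∣ W.c₄)
    (hirr : W.ModRepIsIrreducible p)
    (hfin : (W.map (Int.castRingHom ℚ)).IsPeuRamifieeAt p p)
    {M : ℕ} (hM : 0 < M) (hpM : p ∣ M) (hp2M : ¬ p ^ 2 ∣ M)
    (hmod : W.IsResiduallyModularOfLevel p M) :
    W.IsResiduallyModularOfLevel p (M / p) := by
  have : Fact p.Prime := ⟨hp⟩
  exact Fermat.Agent.RT.LowerPW.lower_at_p hΔ hp2 hirr hsemi
    (fun _ => Fermat.Agent.RT.LowerPW.dvd_padicValInt_of_isPeuRamifieeAt hfin) hM hpM hp2M hmod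

end Fermat.Agent.S39
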