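import Fermat.Statements.S42
import Fermat.Agent.GaloisReps.Models
import Fermat.Agent.GaloisReps.Attach

/-!
# Residual attachment for eigenforms

The property `EigenformResidualAttachmentAt M` of the Frey package holds at every level
`M > 0`: eigenforms have residual representations at `p` with the expected traces and
determinants, factoring through a finite level with the Frey representation. It comes from
`GaloisReps/Models`.
-/

set_option autoImplicit false

namespace Fermat.Agent.S42

theorem result (P : FreyPackage) :
    ∀ M : ℕ, 0 < M → P.EigenformResidualAttachmentAt M := by
  exact fun M _ => Fermat.Agent.GaloisReps.eigenformResidualAttachment
    Fermat.Agent.GaloisReps.models P M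

end Fermat.Agent.S42
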