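import Fermat.Statements.S43
import Fermat.Agent.RT.Frey.Lowered

/-!
# Removing odd primes from a conductor level

If the mod `p` representation of a Frey package is irreducible and modular of a conductor level,
an odd prime `q ≠ p` of that level at which it is unramified can be removed, by level lowering at
squarefree levels (`RT/Frey/Lowered`). That `q` is odd is not used.
-/

set_option autoImplicit false
open WeierstrassCurve.Affine.Point

namespace Fermat.Agent.S43

theorem result (P : FreyPackage) {N q : ℕ} (hcond : P.IsConductorLevel N) (hq : q.Prime) (hq2 : q ≠ 2) (hqp : q ≠ P.p) (hqN : q ∣ N) (hirr : GaloisRepIsIrreducible (K := AlgebraicClosure ℚ) ℚ P.freyCurve P.p) (hmod : P.ModularRepOfLevel N) (hunr : P.GaloisRepUnramifiedAt q) : ∃ M : ℕ, M ∣ N ∧ ¬ q ∣ M ∧ P.ModularRepOfLevel M := by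
  exact Fermat.Agent.RT.Frey.lowerOdd_of_lower Fermat.Agent.RT.Frey.lowerInput P hcond hq hq2 hqp
    hqN hirr hmod hunr

end Fermat.Agent.S43
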