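import Fermat.Statements.S45
import Fermat.Agent.RT.Frey.Lifting
import Fermat.Agent.RT.Frey.Residual
import Fermat.Agent.RT.LowerP.FlatInput

/-!
# A cusp form of level two

If the Frey curve is modular with irreducible mod `p` representation there is a nonzero weight
two cusp form on `Γ₀(2)`, by level lowering from the conductor level. The modularity hypothesis
is not used, as `RT/Frey/ModularSquarefree` proves it again with the exact level.
-/

set_option autoImplicit false
open WeierstrassCurve.Affine.Point

namespace Fermat.Agent.S45

theorem result (P : FreyPackage) (hmod : P.freyCurve.IsModular) (hirr : GaloisRepIsIrreducible (K := AlgebraicClosure ℚ) ℚ P.freyCurve P.p) : ∃ f : CuspForm (CongruenceSubgroup.Gamma0 2) 2, f ≠ 0 := by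
  exact Fermat.Agent.RT.Frey.exists_cuspForm_two_ne_zero Fermat.Agent.RT.Frey.lowerInput
      Fermat.Agent.RT.LowerP.lowerAtPInput Fermat.Agent.RT.Frey.residualThreeEvenInput
      Fermat.Agent.RT.Frey.liftingSquarefreeInput P hirr

end Fermat.Agent.S45
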