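import Fermat.Statements.S48
import Fermat.Agent.DeligneSerre.Reduction
import Fermat.Agent.DeligneSerre.Residual

/-!
# Deligne–Serre

A weight one cusp form with the Hecke relations for a character has an attached irreducible
complex Galois representation with finite image, unramified outside the level, with the expected
traces and determinants of Frobenius (`DeligneSerre/Reduction`). The residual representations
come from eigenclasses in periods of weight two (`DeligneSerre/Residual`).
-/

set_option autoImplicit false
set_option autoImplicit false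
open CongruenceSubgroup
local notation "Γℚ" => (AlgebraicClosure ℚ ≃ₐ[ℚ] AlgebraicClosure ℚ)

namespace Fermat.Agent.S48

theorem result
    (N : ℕ) [NeZero N] (ε : DirichletCharacter ℂ N) (f : CuspForm (Gamma1 N) 1)
    (hf₁ : ModularFormClass.qCoeff f 1 = 1)
    (hT : ∀ p : ℕ, p.Prime → ¬ p ∣ N → ∀ n : ℕ,
        ModularFormClass.qCoeff f (p * n) +
            ε (p : ZMod N) * (if p ∣ n then ModularFormClass.qCoeff f (n / p) else 0) =
          ModularFormClass.qCoeff f p * ModularFormClass.qCoeff f n) :
    ∃ ρ : Γℚ →* GL (Fin 2) ℂ, GaloisFactorsThroughFiniteLevel ρ ∧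
      (Deformation.matrixRepresentation ρ).IsIrreducible ∧
      ∀ p : ℕ, p.Prime → ¬ p ∣ N →
        ∀ A : ValuationSubring (AlgebraicClosure ℚ), A.LiesOverPrime p →
          (∀ σ ∈ A.inertiaSubgroupIn ℚ, ρ σ = 1) ∧
          ∀ σ : Γℚ, A.IsFrobeniusAt σ p →
            ((ρ σ : GL (Fin 2) ℂ) : Matrix (Fin 2) (Fin 2) ℂ).trace = ModularFormClass.qCoeff f p ∧
            ((ρ σ : GL (Fin 2) ℂ) : Matrix (Fin 2) (Fin 2) ℂ).det = ε (p : ZMod N) := by
  exact Fermat.Agent.DeligneSerre.exists_galoisRep_of_deplete hT hf₁
    (Fermat.Agent.DeligneSerre.hasResidualReps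
      (Fermat.Agent.DeligneSerre.isDepleted_deplete hT hf₁))

end Fermat.Agent.S48
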