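import Fermat.Statements.S50
import Fermat.Agent.AllSemistable.Modular

/-!
# Residual modularity at three

A semistable curve with irreducible mod `3` representation is residually modular at `3` of a
squarefree level (`AllSemistable/Modular`, from the modularity of semistable curves). Such a
level is cube free away from `3` and not divisible by `9`, so the last clause of the statement is
vacuous for it. The irreducibility hypothesis is not used.
-/

set_option autoImplicit false
set_option autoImplicit false
open WeierstrassCurve.Affine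

namespace Fermat.Agent.S50

theorem result
    (W : WeierstrassCurve ℤ) (hΔ : W.Δ ≠ 0) (hW : W.IsSemistableModel)
    (h3 : W.ModRepIsIrreducible 3) :
    ∃ M : ℕ, 0 < M ∧ W.IsResiduallyModularOfLevel 3 M ∧
      (∀ q : ℕ, q.Prime → q ≠ 3 → ¬ q ^ 3 ∣ M) ∧
      (3 ^ 2 ∣ M →
        ∀ A : ValuationSubring (AlgebraicClosure ℚ), A.LiesOverPrime 3 →
          ∀ x : Submodule.torsionBy ℤ
              ((W.map (Int.castRingHom ℚ))⁄(AlgebraicClosure ℚ)).Point (3 : ℕ),
            (∀ σ ∈ A.inertiaSubgroupIn ℚ, σ • x = x) → x = 0) := by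
  obtain ⟨M, hM, hsq, -, hres⟩ :=
    Fermat.Agent.AllSemistable.residuallyModular_three W hΔ hW
  refine ⟨M, hM, hres, fun q hq _ h => hq.not_isUnit (hsq q ?_),
    fun h => absurd (hsq 3 (pow_two 3 ▸ h)) Nat.prime_three.not_isUnit⟩
  exact (pow_two q ▸ pow_dvd_pow q (by norm_num : 2 ≤ 3)).trans h

end Fermat.Agent.S50
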