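import Fermat.Statements.S52
import Fermat.Agent.Switch.Main

/-!
# The switch between three and five

A semistable curve has a semistable partner with irreducible mod `3` representation and congruent
traces modulo `5` at the common good primes other than `5` (`Switch/Main`). The irreducibility
of the mod `5` representation is not used.
-/

set_option autoImplicit false

namespace Fermat.Agent.S52

theorem result (W : WeierstrassCurve ℤ) (hΔ : W.Δ ≠ 0) (hW : W.IsSemistableModel) (h5 : W.ModRepIsIrreducible 5) : ∃ W' : WeierstrassCurve ℤ, W'.Δ ≠ 0 ∧ W'.IsSemistableModel ∧ W'.ModRepIsIrreducible 3 ∧ ∀ ℓ : ℕ, ℓ.Prime → W.IsGoodPrimeFor ℓ → W'.IsGoodPrimeFor ℓ → ℓ ≠ 5 → (5 : ℤ) ∣ (W'.apOfModel ℓ - W.apOfModel ℓ) := by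
  exact Switch.three_five_switch W hΔ hW

end Fermat.Agent.S52
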