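import Fermat.Statements.S54
import Fermat.Agent.Arith.Frobenius

/-!
# `R → T` is surjective

A universal deformation ring maps onto the coefficient ring of a Hecke–Galois datum of the same
type and residual representation, since the traces of Frobenius generate the latter; this is
proved in this file.
-/

set_option autoImplicit false
open GaloisRep.DeformationRingData

namespace Fermat.Agent.S54

theorem result {𝒪 : Type} [CommRing 𝒪] [IsDomain 𝒪] [IsDiscreteValuationRing 𝒪] [IsAdicComplete (IsLocalRing.maximalIdeal 𝒪) 𝒪] {ρbar : ResidualGaloisRep (IsLocalRing.ResidueField 𝒪)} {𝒟 : ∀ ⦃A : Type⦄ [CommRing A] [IsLocalRing A] [Algebra 𝒪 A], GaloisRepAdic A → Prop} (D : GaloisRep.DeformationRingData 𝒪 ρbar 𝒟) {N : ℕ} [NeZero N] {S : Set ℕ} {θ : CuspForm.heckeAlgebra N 2 S →+* IsLocalRing.ResidueField 𝒪} {T : Type} [CommRing T] [IsLocalRing T] [IsNoetherianRing T] [IsAdicComplete (IsLocalRing.maximalIdeal T) T] [Algebra 𝒪 T] [IsLocalHom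 (algebraMap 𝒪 T)] [Module.Finite 𝒪 T] [Module.Free 𝒪 T] (H : CuspForm.HeckeGaloisRepDatum N S 𝒪 θ T) (hS : ∀ q : ℕ, q.Prime → q ∣ N → q ∈ S) (h𝒟 : 𝒟 H.ρ) (hres : H.ρ.residual.IsEquiv (ρbar.baseChangeAlong (IsLocalRing.ResidueField.map (algebraMap 𝒪 T)))) : ∃ φ : D.R →ₐ[𝒪] T, Function.Surjective φ ∧ ∃ hφ : IsLocalHom (φ : D.R →+* T), (D.ρ.baseChangeAlong (φ : D.R →+* T) hφ).IsEquiv H.ρ := by
  obtain ⟨φ, ⟨hφ, he⟩, -⟩ := D.universal T H.residue_surjective H.ρ h𝒟 hres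
  refine ⟨φ, ?_, hφ, he⟩
  -- every Hecke eigenvalue is in the image of `φ`
  have hgen : ∀ (ℓ : ℕ) (hℓ : ℓ.Prime) (hℓN : ¬ ℓ ∣ N) (hℓS : ℓ ∉ S),
      H.π (CuspForm.heckeAlgebra.T hℓ hℓN hℓS) ∈ φ.range := by
    intro ℓ hℓ hℓN hℓS
    obtain ⟨A, hA⟩ := Fermat.Agent.Arith.exists_liesOverPrime hℓ
    obtain ⟨σ, hσ⟩ := Fermat.Agent.Arith.exists_isFrobeniusAt hA hℓ
    have hcp := H.charpoly_frob ℓ hℓ hℓN hℓS A hA σ hσ
    obtain ⟨e⟩ := he
    let : Algebra D.R T := (φ : D.R →+* T).toAlgebra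
    have hconj : e.toLinearEquiv.conj ((D.ρ.baseChangeAlong (φ : D.R →+* T) hφ).ρ σ) = H.ρ.ρ σ := by
      refine LinearMap.ext fun x => ?_
      rw [LinearEquiv.conj_apply_apply, e.map_apply, LinearEquiv.apply_symm_apply]
    have h1 : (LinearMap.charpoly (D.ρ.ρ σ)).map (φ : D.R →+* T) =
        LinearMap.charpoly (H.ρ.ρ σ) := by
      rw [← hconj, LinearEquiv.charpoly_conj]
      exact (LinearMap.charpoly_baseChange (D.ρ.ρ σ) (A := T)).symm
    refine ⟨-(LinearMap.charpoly (D.ρ.ρ σ)).coeff 1, ?_⟩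
    have h2 := congrArg (fun P => Polynomial.coeff P 1) h1
    simp only [Polynomial.coeff_map, hcp] at h2
    show φ (-(LinearMap.charpoly (D.ρ.ρ σ)).coeff 1) = _
    rw [map_neg]
    refine (congrArg Neg.neg h2).trans ?_
    simp [Polynomial.coeff_C]
  have hrange : ∀ t, H.π t ∈ φ.range := by
    rintro ⟨t, ht⟩
    induction ht using Algebra.adjoin_induction with
    | mem x hx =>
      rcases hx with ⟨ℓ, hℓ, hℓN, hℓS, rfl⟩ | ⟨q, hqN, hq, hqS, rfl⟩
      · exact hgen ℓ hℓ hℓN hℓS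
      · exact absurd (hS q hq hqN) hqS
    | algebraMap r =>
      have : H.π ⟨algebraMap ℤ _ r, Subalgebra.algebraMap_mem _ r⟩ = (r : T) :=
        RingHom.congr_fun (RingHom.ext_int (H.π.comp (algebraMap ℤ _)) (Int.castRingHom T)) r
      rw [this]
      exact intCast_mem φ.range r
    | add x y hx hy ihx ihy =>
      have := φ.range.add_mem ihx ihy
      rwa [← map_add] at this
    | mul x y hx hy ihx ihy =>
      have := φ.range.mul_mem ihx ihy
      rwa [← map_mul] at this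
  intro t
  have htop : Algebra.adjoin 𝒪 (Set.range H.π) ≤ φ.range :=
    Algebra.adjoin_le (Set.range_subset_iff.mpr hrange)
  rw [H.adjoin_range_π] at htop
  exact htop Algebra.mem_top

end Fermat.Agent.S54
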