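import Fermat.Statements.S56
import Fermat.Agent.CFT.TWPrimes.Assembly
import Fermat.Agent.CFT.Tangent.OrdinaryBound
import Fermat.Agent.CFT.Tangent.FlatBound

/-!
# Taylor–Wiles primes

For an absolutely irreducible residual representation with cyclotomic determinant and eigenvalues
in the residue field, whose restriction to every subgroup of index two stays absolutely
irreducible, sets of `r` Taylor–Wiles primes exist at every depth for which the deformation rings,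
with the strict ordinary or the flat condition at `p`, are generated by `r` elements
(`CFT/TWPrimes/Assembly`).
-/

set_option autoImplicit false
set_option autoImplicit false
open Polynomial IsLocalRing
open ResidualGaloisRep

namespace Fermat.Agent.S56

theorem result
    {𝒪 : Type} [CommRing 𝒪] [IsDomain 𝒪] [IsDiscreteValuationRing 𝒪]
    [IsAdicComplete (maximalIdeal 𝒪) 𝒪] [Finite (ResidueField 𝒪)]
    (p : ℕ) [Fact p.Prime] (hp2 : p ≠ 2) (hp𝒪 : (p : 𝒪) ∈ maximalIdeal 𝒪)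
    (ρbar : ResidualGaloisRep (ResidueField 𝒪))
    (habs : ρbar.IsAbsolutelyIrreducible)
    (hdet : (GaloisRepAdic.ofResidualGaloisRep ρbar).DetIsCyclotomic p)
    (hsplit : ∀ σ : AlgebraicClosure ℚ ≃ₐ[ℚ] AlgebraicClosure ℚ,
      ∃ α β : ResidueField 𝒪, LinearMap.charpoly (ρbar.ρ σ) = (X - C α) * (X - C β))
    (hTW : ∀ (K : Type) [Field K] [Algebra (ResidueField 𝒪) K]
      (G : Subgroup (AlgebraicClosure ℚ ≃ₐ[ℚ] AlgebraicClosure ℚ)), G.index = 2 →
      ∀ V : Submodule K (ρbar.baseChange K).V,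
        (∀ σ ∈ G, ∀ x ∈ V, (ρbar.baseChange K).ρ σ x ∈ V) → V = ⊥ ∨ V = ⊤)
    (S Smin : Finset ℕ) (hpSmin : p ∈ Smin) (hSmin : Smin ⊆ S) (hS : ∀ q ∈ S, q.Prime)
    (hmin : ∀ q : ℕ, q.Prime → q ≠ p → (q ∈ Smin ↔ ¬ ρbar.IsUnramifiedAt q)) :
    (∃ r : ℕ, ∀ n : ℕ, ∃ qv : Fin r → ℕ, Function.Injective qv ∧
      (∀ i, (qv i).Prime ∧ qv i ∉ S ∧ p ^ (n + 1) ∣ qv i - 1) ∧
      (∀ i, ∀ P : ValuationSubring (AlgebraicClosure ℚ), P.LiesOverPrime (qv i) →
        ∀ φ : AlgebraicClosure ℚ ≃ₐ[ℚ] AlgebraicClosure ℚ, P.IsFrobeniusAt φ (qv i) →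
          ∃ α β : ResidueField 𝒪, α ≠ β ∧ LinearMap.charpoly (ρbar.ρ φ) = (X - C α) * (X - C β)) ∧
      ∀ DQ : GaloisRep.DeformationRingData 𝒪 ρbar (fun _A _ _ _ ρ =>
          GaloisRep.strictOrdinaryCondition 𝒪 p (Smin ∪ Finset.univ.image qv) ρ ∧
            ∀ q ∈ Smin, q.Prime → q ≠ p → ρ.IsUnipotentOnInertiaAt q),
        ∃ γ : MvPowerSeries (Fin r) 𝒪 →ₐ[𝒪] DQ.R, Function.Surjective γ) ∧
    (∃ r : ℕ, ∀ n : ℕ, ∃ qv : Fin r → ℕ, Function.Injective qv ∧
      (∀ i, (qv i).Prime ∧ qv i ∉ S ∧ p ^ (n + 1) ∣ qv i - 1) ∧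
      (∀ i, ∀ P : ValuationSubring (AlgebraicClosure ℚ), P.LiesOverPrime (qv i) →
        ∀ φ : AlgebraicClosure ℚ ≃ₐ[ℚ] AlgebraicClosure ℚ, P.IsFrobeniusAt φ (qv i) →
          ∃ α β : ResidueField 𝒪, α ≠ β ∧ LinearMap.charpoly (ρbar.ρ φ) = (X - C α) * (X - C β)) ∧
      ∀ DQ : GaloisRep.DeformationRingData 𝒪 ρbar (fun _A _ _ _ ρ =>
          GaloisRep.flatCondition 𝒪 p (Smin ∪ Finset.univ.image qv) ρ ∧
            ∀ q ∈ Smin, q.Prime → q ≠ p → ρ.IsUnipotentOnInertiaAt q),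
        ∃ γ : MvPowerSeries (Fin r) 𝒪 →ₐ[𝒪] DQ.R, Function.Surjective γ) := by
  -- Both halves are the choice of Taylor–Wiles primes; it remains to check for the local
  -- conditions stability under base change and the bound on the tangent space.
  refine ⟨Fermat.Agent.CFT.TWPrimes.exists_primes_surjective p hp2 hp𝒪 ρbar habs hdet hsplit
    hTW S Smin hpSmin hSmin hS hmin (fun A _ _ ρ => ρ.IsStrictOrdinaryAt p) ?_ ?_,
    Fermat.Agent.CFT.TWPrimes.exists_primes_surjective p hp2 hp𝒪 ρbar habs hdet hsplit hTW S Smin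
      hpSmin hSmin hS hmin (fun A _ _ ρ => ρ.IsFlatAt p) ?_ ?_⟩
  · intro A B _ _ _ _ φ hφ ρ _ h
    exact Fermat.Agent.CFT.Tangent.IsStrictOrdinaryAt.baseChange _ hφ h
  · intro bb V _ hcoc hlev _ hb
    have : CharP (ResidueField 𝒪) p := (CharP.charP_iff_prime_eq_zero Fact.out).mpr (by
      rw [← map_natCast (residue 𝒪), residue_eq_zero_iff]; exact hp𝒪)
    refine Fermat.Agent.CFT.Tangent.finrank_le_ordinary hp2 (fun h => hp2 ?_)
      (Fermat.Agent.CFT.TWPrimes.finiteLevel_matRes ρbar bb)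
      (Fermat.Agent.CFT.TWPrimes.det_matRes_of_detIsCyclotomic ρbar bb p hdet) V hcoc hlev hb
    exact (Nat.prime_dvd_prime_iff_eq Fact.out Nat.prime_two).mp
      ((CharP.cast_eq_zero_iff (ResidueField 𝒪) p 2).mp (by simpa using h))
  · intro A B _ _ _ _ φ hφ ρ hsurj h
    exact Fermat.Agent.CFT.Tangent.IsFlatAt.baseChange _ hφ hsurj h
  · intro bb V _ hcoc hlev htr hb
    have : CharP (ResidueField 𝒪) p := (CharP.charP_iff_prime_eq_zero Fact.out).mpr (by
      rw [← map_natCast (residue 𝒪), residue_eq_zero_iff]; exact hp𝒪)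
    have h2 : (2 : ResidueField 𝒪) ≠ 0 := fun h => hp2
      ((Nat.prime_dvd_prime_iff_eq Fact.out Nat.prime_two).mp
        ((CharP.cast_eq_zero_iff (ResidueField 𝒪) p 2).mp (by simpa using h)))
    refine Fermat.Agent.CFT.Tangent.finrank_le_flat hp2
      (Fermat.Agent.CFT.TWPrimes.finiteLevel_matRes ρbar bb)
      (Fermat.Agent.CFT.TWPrimes.det_matRes_of_detIsCyclotomic ρbar bb p hdet)
      (Fermat.Agent.CFT.TWPrimes.twHyp_matRes ρbar bb h2 habs hsplit (hTW _)).split V hcoc hlev htr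
      fun b hbV hb0 => ?_
    obtain ⟨ρ, B, hf, -, hB⟩ := hb b hbV hb0
    exact ⟨ρ, B, hf, hB⟩

end Fermat.Agent.S56
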