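import Fermat.Statements.S58
import Fermat.Agent.S35
import Fermat.Agent.S36
import Fermat.Agent.ConductorLevel.Assembly

/-!
# Conductor and level

A semistable curve with irreducible mod `p` representation, `p` odd, modular of a cube free level
`N` with `p ^ 2 ∤ N` and divisible by all bad primes, is modular of its conductor level
(`ConductorLevel/Assembly`, with S35 and S36).
-/

set_option autoImplicit false
set_option autoImplicit false

namespace Fermat.Agent.S58

theorem result
    (W : WeierstrassCurve ℤ) (hss : W.IsSemistableModel) (N : ℕ)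
    (p : ℕ) [Fact p.Prime] (hp2 : p ≠ 2) (hirr : W.ModRepIsIrreducible p)
    (hp2N : ¬ p ^ 2 ∣ N)
    (hN : W.IsModularModelOfLevel N) (hbad : ∀ ℓ : ℕ, ℓ.Prime → (ℓ : ℤ) ∣ W.Δ → ℓ ∣ N)
    (hN3 : ∀ q : ℕ, q.Prime → ¬ q ^ 3 ∣ N) :
    W.IsModularModelOfLevel W.conductorLevel := by
  exact Fermat.Agent.ConductorLevel.isModularModelOfLevel_conductorLevel
    (fun {M} _ {g} hg => Fermat.Agent.S35.result hg) (fun {M} _ {g} hg =>
      Fermat.Agent.S36.result hg)
    W hss N p hp2 hirr hp2N hN hbad hN3

end Fermat.Agent.S58
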