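import Fermat.Statements.S59
import Fermat.Agent.AllSemistable.Modular

/-!
# Modularity of exact conductor level

A semistable curve with irreducible mod `p` representation, `p = 3` or `5`, residually modular of
a level of the stated shape, is modular of exactly its conductor level. It is read off from
`AllSemistable/Modular`, which proves this for every semistable curve with the lifting theorem of
`RT/Frey/Lifting`, so none of the hypotheses on `p` and `M₀` is used.
-/

set_option autoImplicit false
set_option autoImplicit false

namespace Fermat.Agent.S59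

theorem result (p : ℕ) (hp : p = 3 ∨ p = 5)
    (W : WeierstrassCurve ℤ) (hΔ : W.Δ ≠ 0) (hW : W.IsSemistableModel)
    (hirr : W.ModRepIsIrreducible p)
    (M₀ : ℕ) [NeZero M₀] (hres₀ : W.IsResiduallyModularOfLevel p M₀)
    (hM₀ : ¬ p ^ 2 ∣ M₀)
    (hM₀3 : ∀ q : ℕ, q.Prime → q ≠ p → ¬ q ^ 3 ∣ M₀) :
    Mlc1IsModularModelOfExactConductorLevel W := by
  exact Fermat.Agent.AllSemistable.isModular_of_semistable W hΔ hW

end Fermat.Agent.S59
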