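import Fermat.Statements.S60
import Fermat.Agent.AllSemistable.Modular

/-!
# Semistable curves are modular

Every semistable integral Weierstrass curve with nonzero discriminant is modular over `ℚ`
(`AllSemistable/Modular`).
-/

set_option autoImplicit false
open WeierstrassCurve
open WeierstrassCurve

namespace Fermat.Agent.S60

theorem result (W : WeierstrassCurve ℤ) (hΔ : W.Δ ≠ 0) (hW : W.IsSemistableModel) : (W.map (Int.castRingHom ℚ)).IsModular := by
  obtain ⟨N, hN, -, -, hmod⟩ := Fermat.Agent.AllSemistable.isModular_of_semistable W hΔ hW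
  exact ⟨W, ⟨1, one_smul _ _⟩, N, hN, hmod⟩

end Fermat.Agent.S60
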